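import Fermat.Agent.ModularityLifting.Local.Tri

/-!
# The cone of Steinberg representations at a scalar residual point

At `q ≡ 1` with scalar residual Frobenius the line of a Steinberg point is arbitrary: the chart is
`[[εq, ε(x₀ + x)], [0, ε]]`, `[[1, n₀ + n], [0, 1]]` conjugated by `u(a) l(t)`. Modulo `ϖ` and the
three elements `εΦ₀₁ - N₁₀`, `Φ₁₀`, `N₀₁`, every coordinate is nilpotent on it.
-/

set_option autoImplicit false

noncomputable section

open IsLocalRing

namespace FLTAgent.ModularityLifting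

variable {O : Type} [CommRing O] [IsLocalRing O]

namespace Chart

/-- The coordinates of a site with tame generator: three entries of Frobenius, four of inertia. -/
inductive TameCoord : Type
  | phi00 | phi01 | phi10 | tau00 | tau01 | tau10 | tau11
deriving DecidableEq

instance : Fintype TameCoord :=
  ⟨{.phi00, .phi01, .phi10, .tau00, .tau01, .tau10, .tau11}, fun c => by cases c <;> simp⟩

/-- The position of a coordinate. -/
def TameCoord.pos : TameCoord → Fin 2 × Fin 2 × Fin 2
  | .phi00 => (0, 0, 0)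
  | .phi01 => (0, 0, 1)
  | .phi10 => (0, 1, 0)
  | .tau00 => (1, 0, 0)
  | .tau01 => (1, 0, 1)
  | .tau10 => (1, 1, 0)
  | .tau11 => (1, 1, 1)

/-- Conjugation by `u(a) l(t)`. -/
def conjUL {P : Type} [CommRing P] (a t : P) (M : Matrix (Fin 2) (Fin 2) P) :
    Matrix (Fin 2) (Fin 2) P :=
  !![1 + a * t, a; t, 1] * M * !![1, -a; -t, 1 + a * t]

theorem conjUL_apply {P : Type} [CommRing P] (a t x y z : P) :
    conjUL a t !![x, y; 0, z] =
      !![(1 + a * t) * x - ((1 + a * t) * y + a * z) * t,
        -((1 + a * t) * x * a) + ((1 + a * t) * y + a * z) * (1 + a * t);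
        t * x - (t * y + z) * t, -(t * x * a) + (t * y + z) * (1 + a * t)] := by
  ext i j
  fin_cases i <;> fin_cases j <;> simp [conjUL, Matrix.mul_apply, Fin.sum_univ_two] <;> ring

/-- The parameters of the cone. -/
inductive ConeParam : Type
  | a | t | x | n
deriving DecidableEq

instance : Fintype ConeParam := ⟨{.a, .t, .x, .n}, fun c => by cases c <;> simp⟩

/-- The matrices of the cone. -/
def coneMat {P : Type} [CommRing P] (q ε x n a t : P) (j : Fin 2) : Matrix (Fin 2) (Fin 2) P :=
  if j = 0 then conjUL a t !![ε * q, ε * x; 0, ε] else conjUL a t !![1, n; 0, 1]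

theorem map_coneMat {P P' : Type} [CommRing P] [CommRing P'] (φ : P →+* P') (q ε x n a t : P)
    (j : Fin 2) (i k : Fin 2) :
    φ (coneMat q ε x n a t j i k) = coneMat (φ q) (φ ε) (φ x) (φ n) (φ a) (φ t) j i k := by
  fin_cases j <;> fin_cases i <;> fin_cases k <;> simp [coneMat, conjUL_apply]

open MvPolynomial in
/-- The general entry of the cone. -/
def coneEntry (q ε x₀ n₀ : O) (c : TameCoord) : MvPolynomial ConeParam O :=
  coneMat (C q) (C ε) (C x₀ + X .x) (C n₀ + X .n) (X .a) (X .t) c.pos.1 c.pos.2.1 c.pos.2.2 -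
    C (coneMat q ε x₀ n₀ 0 0 c.pos.1 c.pos.2.1 c.pos.2.2)

/-- A scalar matrix is fixed by the conjugation. -/
theorem coneMat_scalar {P : Type} [CommRing P] (ε a t : P) (j i k : Fin 2) :
    coneMat 1 ε 0 0 a t j i k = coneMat 1 ε 0 0 0 0 j i k := by
  fin_cases j <;> fin_cases i <;> fin_cases k <;> simp [coneMat, conjUL_apply] <;> ring

open MvPolynomial in
theorem coneEntry_mem (q ε x₀ n₀ : O) (hq : q - 1 ∈ maximalIdeal O) (hx : x₀ ∈ maximalIdeal O)
    (hn : n₀ ∈ maximalIdeal O) (c : TameCoord) :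
    coneEntry q ε x₀ n₀ c ∈ Ideal.span (Set.image C (maximalIdeal O : Set O) ∪
      {X ConeParam.x, X ConeParam.n}) := by
  set I := Ideal.span (Set.image (C : O →+* MvPolynomial ConeParam O) (maximalIdeal O : Set O) ∪
      {X ConeParam.x, X ConeParam.n}) with hI
  let π := Ideal.Quotient.mk I
  have hm : ∀ b ∈ maximalIdeal O, π (C b) = 0 := fun b hb =>
    Ideal.Quotient.eq_zero_iff_mem.mpr (Ideal.subset_span (Or.inl ⟨b, hb, rfl⟩))
  have hX : π (X ConeParam.x) = 0 ∧ π (X ConeParam.n) = 0 :=
    ⟨Ideal.Quotient.eq_zero_iff_mem.mpr (Ideal.subset_span (Or.inr (Or.inl rfl))),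
      Ideal.Quotient.eq_zero_iff_mem.mpr (Ideal.subset_span (Or.inr (Or.inr rfl)))⟩
  have hq' : π (C q) = 1 := by
    have := hm _ hq
    rwa [map_sub, map_sub, map_one, map_one, sub_eq_zero] at this
  rw [coneEntry, ← Ideal.Quotient.eq]
  rw [map_coneMat C, map_coneMat π, map_coneMat π]
  simp only [map_add, map_zero, hq', hm _ hx, hm _ hn, hX.1, hX.2, add_zero]
  exact coneMat_scalar _ _ _ _ _ _

open MvPolynomial in
theorem coeff_mem_of_mem_span {p : MvPolynomial ConeParam O}
    (hp : p ∈ Ideal.span (Set.image C (maximalIdeal O : Set O) ∪ {X ConeParam.x, X ConeParam.n}))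
    (e : ConeParam →₀ ℕ) (hx : e .x = 0) (hn : e .n = 0) : coeff e p ∈ maximalIdeal O := by
  classical
  induction hp using Submodule.span_induction generalizing e with
  | mem p hp =>
    rcases hp with ⟨b, hb, rfl⟩ | rfl | rfl
    · rw [coeff_C]; split
      · exact hb
      · exact zero_mem _
    · rw [coeff_X, if_neg]
      · exact zero_mem _
      · intro h; subst h; simp at hx
    · rw [coeff_X, if_neg]
      · exact zero_mem _
      · intro h; subst h; simp at hn
  | zero => simp
  | add p r _ _ hp hr => rw [coeff_add]; exact add_mem (hp e hx hn) (hr e hx hn)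
  | smul c p _ hp =>
    rw [smul_eq_mul, coeff_mul]
    refine sum_mem fun uv huv => Ideal.mul_mem_left _ _ ?_
    rw [Finset.HasAntidiagonal.mem_antidiagonal] at huv
    have h1 := congrArg (· ConeParam.x) huv
    have h2 := congrArg (· ConeParam.n) huv
    simp only [Finsupp.add_apply] at h1 h2
    exact hp _ (by omega) (by omega)

/-- The cone chart. -/
abbrev cone (q ε x₀ n₀ : O) (hq : q - 1 ∈ maximalIdeal O) (hx : x₀ ∈ maximalIdeal O)
    (hn : n₀ ∈ maximalIdeal O) : Chart O TameCoord where
  Param := ConeParam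
  fintype := inferInstance
  small k := match k with
    | .x => true
    | .n => true
    | _ => false
  entry := coneEntry q ε x₀ n₀
  entry_small c e he := coeff_mem_of_mem_span (coneEntry_mem q ε x₀ n₀ hq hx hn c) e
    (he _ rfl) (he _ rfl)

variable [IsNoetherianRing O] [IsAdicComplete (maximalIdeal O) O]

/-- Relations between the entries of a point of the cone. -/
theorem cone_relations {P : Type} [CommRing P] (q ε x n a t : P) (hε : ε * ε = 1) :
    let Φ := coneMat q ε x n a t 0
    let T := coneMat q ε x n a t 1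
    (ε * Φ 0 0) * (ε * Φ 0 0) - (q + 1) * (ε * Φ 0 0) + q + Φ 0 1 * Φ 1 0 = 0 ∧
    T 0 0 + T 1 1 - 2 = 0 ∧ (T 0 0 - 1) * (T 0 0 - 1) + T 0 1 * T 1 0 = 0 ∧
    (ε * Φ 0 0 - 1) * (T 0 0 - 1) + ε * Φ 0 1 * T 1 0 - (q - 1) * (T 0 0 - 1) = 0 := by
  simp only [coneMat, if_true, one_ne_zero, if_false, conjUL_apply, Matrix.of_apply,
    Matrix.cons_val', Matrix.cons_val_zero, Matrix.cons_val_one, Matrix.cons_val_fin_one]
  refine ⟨?_, by ring, by ring, ?_⟩
  · linear_combination (((1 + a * t) * q - ((1 + a * t) * x + a) * t) *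
      ((1 + a * t) * q - ((1 + a * t) * x + a) * t) * (ε * ε + 1) -
      (q + 1) * ((1 + a * t) * q - ((1 + a * t) * x + a) * t) +
      (-((1 + a * t) * q * a) + ((1 + a * t) * x + a) * (1 + a * t)) *
      (t * q - (t * x + 1) * t)) * hε
  · linear_combination (-(((1 + a * t) * q - ((1 + a * t) * x + a) * t) * (n * t * (1 + a * t))) +
      (-((1 + a * t) * q * a) + ((1 + a * t) * x + a) * (1 + a * t)) * (-(n * t * t))) * hε

open MvPowerSeries in
/-- The cone has a system of three parameters. -/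
theorem cone_hasSop (q ε x₀ n₀ : O) (hε : ε * ε = 1) (hq : q - 1 ∈ maximalIdeal O)
    (hx : x₀ ∈ maximalIdeal O) (hn : n₀ ∈ maximalIdeal O) {ϖ : O}
    (hϖ : maximalIdeal O = Ideal.span {ϖ}) : (cone q ε x₀ n₀ hq hx hn).HasSop ϖ 3 := by
  classical
  set K := cone q ε x₀ n₀ hq hx hn
  let S := MvPowerSeries TameCoord O
  let V : TameCoord → S := fun c =>
    C (coneMat q ε x₀ n₀ 0 0 c.pos.1 c.pos.2.1 c.pos.2.2) + X c
  refine ⟨![C ε * X .phi01 - X .tau10, X .phi10, X .tau01], fun k => ?_, ?_⟩
  · rw [DefRing.mem_maximalIdeal_iff_constantCoeff]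
    fin_cases k <;> simp
  set f := ![C ε * X TameCoord.phi01 - X TameCoord.tau10, X TameCoord.phi10,
    (X TameCoord.tau01 : S)]
  set I : Ideal S := K.component ⊔ Ideal.span (insert (C ϖ) (Set.range f))
  let π := Ideal.Quotient.mk I
  have mk : ∀ p : S, K.map p = 0 → π p = 0 := fun p hp =>
    Ideal.Quotient.eq_zero_iff_mem.mpr (Ideal.mem_sup_left (mem_component.mpr hp))
  have hf : ∀ k, π (f k) = 0 := fun k =>
    Ideal.Quotient.eq_zero_iff_mem.mpr
      (Ideal.mem_sup_right (Ideal.subset_span (Set.mem_insert_of_mem _ ⟨k, rfl⟩)))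
  have hm : ∀ b ∈ maximalIdeal O, π (C b) = 0 := fun b hb => by
    rw [hϖ, Ideal.mem_span_singleton] at hb
    obtain ⟨b, rfl⟩ := hb
    refine Ideal.Quotient.eq_zero_iff_mem.mpr (Ideal.mem_sup_right ?_)
    rw [map_mul]
    exact Ideal.mul_mem_right _ _ (Ideal.subset_span (Set.mem_insert _ _))
  let F : Fin 2 → Fin 2 → Fin 2 → MvPowerSeries ConeParam O :=
    coneMat (C q) (C ε) (C x₀ + X ConeParam.x) (C n₀ + X ConeParam.n) (X ConeParam.a)
      (X ConeParam.t)
  have img : ∀ c : TameCoord, K.map (V c) = F c.pos.1 c.pos.2.1 c.pos.2.2 := fun c => by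
    have e : K.map (X c) =
        F c.pos.1 c.pos.2.1 c.pos.2.2 - C (coneMat q ε x₀ n₀ 0 0 c.pos.1 c.pos.2.1 c.pos.2.2) := by
      rw [map_X]
      show MvPolynomial.coeToMvPowerSeries.ringHom (σ := ConeParam) (R := O)
        (coneEntry q ε x₀ n₀ c) = _
      rw [coneEntry, map_sub,
        map_coneMat (MvPolynomial.coeToMvPowerSeries.ringHom (σ := ConeParam) (R := O))]
      simp [F, MvPolynomial.coeToMvPowerSeries.ringHom_apply, MvPolynomial.coe_X,
        MvPolynomial.coe_C]
    simp only [V, map_add, map_C, e]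
    ring
  have hεC : (C ε : MvPowerSeries ConeParam O) * C ε = 1 := by rw [← map_mul, hε, map_one]
  obtain ⟨h1, h2, h3, h4⟩ := cone_relations (C q) (C ε) (C x₀ + X ConeParam.x)
    (C n₀ + X ConeParam.n) (X ConeParam.a) (X ConeParam.t) hεC
  have r1 := mk ((C ε * V .phi00) * (C ε * V .phi00) - (C q + 1) * (C ε * V .phi00) + C q +
    V .phi01 * V .phi10) (by simpa [img, map_C, F, TameCoord.pos] using h1)
  have r2 := mk (V .tau00 + V .tau11 - 2) (by simpa [img, map_ofNat, F, TameCoord.pos] using h2)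
  have r3 := mk ((V .tau00 - 1) * (V .tau00 - 1) + V .tau01 * V .tau10)
    (by simpa [img, F, TameCoord.pos] using h3)
  have r4 := mk ((C ε * V .phi00 - 1) * (V .tau00 - 1) + C ε * V .phi01 * V .tau10 -
    (C q - 1) * (V .tau00 - 1)) (by simpa [img, map_C, F, TameCoord.pos] using h4)
  have hε' : π (C ε) * π (C ε) = 1 := by rw [← map_mul, ← map_mul, hε, map_one, map_one]
  have hq' : π (C q) = 1 := by
    have := hm _ hq
    rwa [map_sub, map_sub, map_one, map_one, sub_eq_zero] at this
  have f0 := hf 0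
  have f1 := hf 1
  have f2 := hf 2
  simp only [f, Matrix.cons_val_zero, Matrix.cons_val_one, Matrix.cons_val_two, Matrix.head_cons,
    Matrix.tail_cons, map_sub, map_mul] at f0 f1 f2
  simp only [V, TameCoord.pos, coneMat, ↓reduceIte, one_ne_zero, conjUL_apply,
    Matrix.of_apply, Matrix.cons_val', Matrix.cons_val_zero, Matrix.cons_val_one,
    Matrix.cons_val_fin_one, mul_zero, zero_mul, add_zero, sub_zero, zero_add, one_mul, mul_one,
    map_zero, map_one, map_add, map_sub, map_mul, map_ofNat, hq', hm _ hx, hm _ hn, neg_zero,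
    f1, f2] at r1 r2 r3 r4
  have ha : π (X .phi00) * π (X .phi00) = 0 := by
    linear_combination r1 - (π (C ε) * π (C ε) - 1 + 2 * π (C ε) * π (X TameCoord.phi00) +
      π (X TameCoord.phi00) * π (X TameCoord.phi00)) * hε'
  have he : π (X .tau00) * π (X .tau00) = 0 := by linear_combination r3
  have hg : π (X .tau10) * π (X .tau10) =
      -(π (C ε) * π (X .phi00) * π (X .tau00)) := by
    linear_combination r4 - π (X TameCoord.tau10) * f0 - π (X TameCoord.tau00) * hε'
  have hg4 : π (X .tau10) ^ 4 = 0 := by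
    linear_combination (π (X TameCoord.tau10) * π (X TameCoord.tau10) -
      π (C ε) * π (X TameCoord.phi00) * π (X TameCoord.tau00)) * hg +
      (π (C ε) * π (C ε) * (π (X TameCoord.tau00) * π (X TameCoord.tau00))) * ha
  have hb : π (X .phi01) = π (C ε) * π (X .tau10) := by
    linear_combination π (C ε) * f0 - π (X TameCoord.phi01) * hε'
  have hh : π (X .tau11) = -π (X .tau00) := by linear_combination r2
  intro c
  refine ⟨4, Ideal.Quotient.eq_zero_iff_mem.mp ?_⟩
  rw [map_pow]
  cases c with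
  | phi00 => linear_combination π (X TameCoord.phi00) * π (X TameCoord.phi00) * ha
  | phi01 => rw [hb, mul_pow, hg4, mul_zero]
  | phi10 => rw [f1, zero_pow (by norm_num)]
  | tau00 => linear_combination π (X TameCoord.tau00) * π (X TameCoord.tau00) * he
  | tau01 => rw [f2, zero_pow (by norm_num)]
  | tau10 => exact hg4
  | tau11 =>
    rw [hh]
    linear_combination π (X TameCoord.tau00) * π (X TameCoord.tau00) * he

end Chart

end FLTAgent.ModularityLifting
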