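import Fermat.Agent.ModularityLifting.Local.Tri

/-!
# Products of charts

A family of systems of parameters gives one of the product; the embedding of a factor respects
components.
-/

set_option autoImplicit false

noncomputable section

open IsLocalRing

namespace FLTAgent.ModularityLifting

open FLTAgent.DefRing

variable {O : Type} [CommRing O] [IsLocalRing O] [IsNoetherianRing O]
  [IsAdicComplete (maximalIdeal O) O]

namespace Chart

variable {J : Type} [Fintype J] {ι : J → Type} [∀ j, Finite (ι j)] (C : ∀ j, Chart O (ι j))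

/-- The embedding of the coordinates of a factor. -/
def incl (O : Type) [CommRing O] [IsLocalRing O] [IsNoetherianRing O]
    [IsAdicComplete (maximalIdeal O) O] {J : Type} [Fintype J] {ι : J → Type}
    [∀ j, Finite (ι j)] (j : J) : MvPowerSeries (ι j) O →ₐ[O] MvPowerSeries (Σ j, ι j) O :=
  evalAdic (maximalIdeal _) (fun i => MvPowerSeries.X ⟨j, i⟩)
    fun i => DefRing.X_mem_maximalIdeal (⟨j, i⟩ : Σ j, ι j)

@[simp] theorem incl_X (j : J) (i : ι j) :
    incl O j (MvPowerSeries.X i : MvPowerSeries (ι j) O) = MvPowerSeries.X ⟨j, i⟩ :=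
  evalAdic_X _ _ _ _

/-- The embedding of the parameters of a factor. -/
def paramIncl (j : J) : MvPowerSeries (C j).Param O →ₐ[O] MvPowerSeries (sigma C).Param O :=
  evalAdic (maximalIdeal _) (fun k => MvPowerSeries.X ⟨j, k⟩)
    fun k => DefRing.X_mem_maximalIdeal (⟨j, k⟩ : Σ j, (C j).Param)

theorem map_incl (j : J) (p : MvPowerSeries (ι j) O) :
    (sigma C).map (incl O j p) = paramIncl C j ((C j).map p) := by
  have hcoe : (paramIncl C j).comp (MvPolynomial.coeToMvPowerSeries.algHom O) =
      (MvPolynomial.coeToMvPowerSeries.algHom O).comp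
        (MvPolynomial.rename (Sigma.mk (β := fun j => (C j).Param) j)) :=
    MvPolynomial.algHom_ext fun k => by
      have h1 : ∀ {σ : Type} (q : MvPolynomial σ O),
          MvPolynomial.coeToMvPowerSeries.algHom O q = (q : MvPowerSeries σ O) := fun q => by
        simp [MvPolynomial.coeToMvPowerSeries.algHom_apply]
      rw [AlgHom.comp_apply, AlgHom.comp_apply, h1, h1, MvPolynomial.rename_X, MvPolynomial.coe_X,
        MvPolynomial.coe_X]
      exact evalAdic_X _ _ _ _
  have hX : ∀ i, (sigma C).map (incl O j (MvPowerSeries.X i)) =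
      paramIncl C j ((C j).map (MvPowerSeries.X i)) := fun i => by
    rw [incl_X, map_X, map_X]
    have := AlgHom.congr_fun hcoe ((C j).entry i)
    simp only [AlgHom.comp_apply, MvPolynomial.coeToMvPowerSeries.algHom_apply,
      Algebra.algebraMap_self, MvPowerSeries.map_id, RingHom.id_apply] at this
    exact this.symm
  have hmem : ∀ i, ((sigma C).map.comp (incl O j)) (MvPowerSeries.X i) ∈
      maximalIdeal (MvPowerSeries (sigma C).Param O) := fun i => by
    rw [AlgHom.comp_apply, incl_X, map_X]
    exact (sigma C).filt_one_le ((sigma C).entry_mem_filt _)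
  exact AlgHom.congr_fun (algHom_ext_of_hausdorff _ ((sigma C).map.comp (incl O j))
    ((paramIncl C j).comp (C j).map) hmem fun i => hX i) p

theorem incl_mem_component (j : J) {p : MvPowerSeries (ι j) O} (hp : p ∈ (C j).component) :
    incl O j p ∈ (sigma C).component := by
  rw [mem_component] at hp ⊢
  rw [map_incl, hp, map_zero]

/-- Systems of parameters of the factors give one of the product. -/
theorem sigma_hasSop (ϖ : O) (d : J → ℕ) (h : ∀ j, (C j).HasSop ϖ (d j)) :
    (sigma C).HasSop ϖ (∑ j, d j) := by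
  classical
  choose f hf hX using h
  let e : (Σ j, Fin (d j)) ≃ Fin (∑ j, d j) := Fintype.equivFinOfCardEq (by simp)
  let G : (Σ j, Fin (d j)) → MvPowerSeries (Σ j, ι j) O := fun x => incl (ι := ι) O x.1 (f x.1 x.2)
  have hG : ∀ x, G x ∈ maximalIdeal (MvPowerSeries (Σ j, ι j) O) := fun x => by
    have h := mem_pow_of_algHom (maximalIdeal (MvPowerSeries (Σ j, ι j) O)) (incl (ι := ι) O x.1)
      (fun i => by rw [incl_X]; exact DefRing.X_mem_maximalIdeal _) 1
      (f x.1 x.2 - MvPowerSeries.C (MvPowerSeries.constantCoeff (f x.1 x.2)))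
      (DefRing.mem_span_X_pow fun e he => by
        obtain rfl : e = 0 := (Finsupp.degree_eq_zero_iff e).mp (by omega)
        simp)
    rw [pow_one, map_sub] at h
    have hc := (incl (ι := ι) O x.1).commutes (MvPowerSeries.constantCoeff (f x.1 x.2))
    simp only [MvPowerSeries.algebraMap_apply, Algebra.algebraMap_self, RingHom.id_apply] at hc
    rw [hc] at h
    refine (Submodule.sub_mem_iff_left _ ?_).mp h
    rw [DefRing.mem_maximalIdeal_iff_constantCoeff, MvPowerSeries.constantCoeff_C]
    exact (DefRing.mem_maximalIdeal_iff_constantCoeff _).mp (hf _ _)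
  refine ⟨fun k => G (e.symm k), fun k => hG _, ?_⟩
  have hrange : Set.range (fun k => G (e.symm k)) = Set.range G := e.symm.surjective.range_comp G
  rw [hrange]
  rintro ⟨j, i⟩
  set I : Ideal (MvPowerSeries (Σ j, ι j) O) :=
    (sigma C).component ⊔ Ideal.span (insert (MvPowerSeries.C ϖ) (Set.range G)) with hI
  have h1 : ((C j).component ⊔ Ideal.span (insert (MvPowerSeries.C ϖ) (Set.range (f j)))).map
      (incl (ι := ι) O j).toRingHom ≤ I := by
    rw [Ideal.map_sup, Ideal.map_span]
    refine sup_le (Ideal.map_le_iff_le_comap.mpr fun p hp =>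
      Ideal.mem_sup_left (incl_mem_component C j hp)) (Ideal.span_le.mpr ?_)
    rintro _ ⟨_, (rfl | ⟨k, rfl⟩), rfl⟩
    · refine Ideal.mem_sup_right (Ideal.subset_span (Or.inl ?_))
      simpa [MvPowerSeries.algebraMap_apply] using (incl (ι := ι) O j).commutes ϖ
    · exact Ideal.mem_sup_right (Ideal.subset_span (Or.inr ⟨⟨j, k⟩, rfl⟩))
  obtain ⟨n, hn⟩ := hX j i
  refine ⟨n, ?_⟩
  have h2 := h1 (Ideal.mem_map_of_mem _ hn)
  rw [map_pow] at h2
  simpa using h2

end Chart

end FLTAgent.ModularityLifting
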