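import Fermat.Agent.ModularityLifting.Local.Eval
import Mathlib.RingTheory.MvPowerSeries.NoZeroDivisors

/-!
# Charts of local deformation components

A chart is a polynomial map from parameters, some of which are small, to coordinates. The
component it defines is the kernel of the induced map of power series rings; it is a prime ideal,
and every point of the chart with arbitrary values of the parameters that are not small lies on it.
-/

set_option autoImplicit false

noncomputable section

open IsLocalRing

namespace FLTAgent.ModularityLifting

open FLTAgent.DefRing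

variable (O : Type) [CommRing O] [IsLocalRing O]

/-- A chart with coordinates `ι`. -/
structure Chart (ι : Type) where
  Param : Type
  fintype : Fintype Param
  small : Param → Bool
  entry : ι → MvPolynomial Param O
  entry_small : ∀ i e, (∀ k, small k = true → e k = 0) →
    MvPolynomial.coeff e (entry i) ∈ maximalIdeal O

namespace Chart

variable {O} {ι : Type} (C : Chart O ι)

attribute [instance] Chart.fintype

/-- The number of small parameters in a monomial. -/
def weight (e : C.Param →₀ ℕ) : ℕ := ∑ k, if C.small k = true then e k else 0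

theorem weight_add (e e' : C.Param →₀ ℕ) : C.weight (e + e') = C.weight e + C.weight e' := by
  simp only [weight, ← Finset.sum_add_distrib]
  exact Finset.sum_congr rfl fun k _ => by split <;> simp

/-- Series whose coefficients are small enough at each monomial. -/
def filt (n : ℕ) : Ideal (MvPowerSeries C.Param O) where
  carrier := {p | ∀ e, MvPowerSeries.coeff e p ∈ maximalIdeal O ^ (n - C.weight e)}
  zero_mem' e := by simp
  add_mem' hp hq e := by rw [map_add]; exact add_mem (hp e) (hq e)
  smul_mem' c p hp e := by
    classical
    rw [smul_eq_mul, MvPowerSeries.coeff_mul]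
    refine sum_mem fun uv huv => Ideal.mul_mem_left _ _ ?_
    rw [Finset.HasAntidiagonal.mem_antidiagonal] at huv
    exact Ideal.pow_le_pow_right (by rw [← huv, weight_add]; omega) (hp uv.2)

theorem filt_mul_le (m n : ℕ) : C.filt m * C.filt n ≤ C.filt (m + n) :=
  Ideal.mul_le.mpr fun p hp q hq e => by
    classical
    rw [MvPowerSeries.coeff_mul]
    refine sum_mem fun uv huv => ?_
    rw [Finset.HasAntidiagonal.mem_antidiagonal] at huv
    have := Ideal.mul_mem_mul (hp uv.1) (hq uv.2)
    rw [← pow_add] at this
    exact Ideal.pow_le_pow_right (by rw [← huv, weight_add]; omega) this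

theorem filt_one_pow_le (n : ℕ) : C.filt 1 ^ n ≤ C.filt n := by
  induction n with
  | zero => intro p _ e; simp
  | succ n ih =>
    exact (pow_succ (C.filt 1) n) ▸ (Ideal.mul_mono ih le_rfl).trans (C.filt_mul_le n 1)

theorem entry_mem_filt (i : ι) :
    (C.entry i : MvPowerSeries C.Param O) ∈ C.filt 1 := fun e => by
  rw [MvPolynomial.coeff_coe]
  by_cases he : C.weight e = 0
  · rw [he, Nat.sub_zero, pow_one]
    refine C.entry_small i e fun k hk => ?_
    simpa [hk] using Finset.sum_eq_zero_iff.mp he k (Finset.mem_univ k)
  · simp [show 1 - C.weight e = 0 by omega]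

theorem filt_one_le : C.filt 1 ≤ maximalIdeal (MvPowerSeries C.Param O) := fun p hp => by
  rw [mem_maximalIdeal_iff_constantCoeff, ← MvPowerSeries.coeff_zero_eq_constantCoeff_apply]
  simpa [weight] using hp 0

variable [Finite ι] [IsNoetherianRing O] [IsAdicComplete (maximalIdeal O) O]

/-- The map of power series rings defined by a chart. -/
def map : MvPowerSeries ι O →ₐ[O] MvPowerSeries C.Param O :=
  evalAdic (maximalIdeal (MvPowerSeries C.Param O)) (fun i => (C.entry i : MvPowerSeries C.Param O))
    fun i => C.filt_one_le (C.entry_mem_filt i)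

theorem map_X (i : ι) : C.map (MvPowerSeries.X i) = C.entry i := by simp [map]

/-- The component defined by a chart. -/
def component : Ideal (MvPowerSeries ι O) := RingHom.ker C.map

instance isPrime_component [IsDomain O] : C.component.IsPrime :=
  haveI : IsDomain (MvPowerSeries C.Param O) := NoZeroDivisors.to_isDomain _
  RingHom.ker_isPrime _

/-- Every point of the chart lies on its component. -/
theorem eval_eq_zero {T : Type} [CommRing T] [Algebra O T] (I : Ideal T) [IsAdicComplete I T]
    (hI : (maximalIdeal O).map (algebraMap O T) ≤ I) (u : C.Param → T)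
    (hu : ∀ k, C.small k = true → u k ∈ I) (a : ι → T) (ha : ∀ i, a i ∈ I)
    (hau : ∀ i, a i = MvPolynomial.aeval u (C.entry i)) {p : MvPowerSeries ι O}
    (hp : p ∈ C.component) : evalAdic (O := O) I a ha p = 0 := by
  refine IsHausdorff.haus (I := I) inferInstance _ fun n => ?_
  rw [SModEq.zero, smul_eq_mul, Ideal.mul_top]
  set P : MvPolynomial C.Param O :=
    MvPolynomial.aeval C.entry (MvPowerSeries.truncTotal n p)
  have h1 : (P : MvPowerSeries C.Param O) ∈ C.filt n := by
    refine C.filt_one_pow_le n ?_
    have h := mem_pow_of_algHom (C.filt 1) C.map (fun i => by rw [map_X]; exact C.entry_mem_filt i)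
      n _ (sub_trunc_mem_span_X_pow n p)
    have hc : C.map.comp (MvPolynomial.coeToMvPowerSeries.algHom O) =
        (MvPolynomial.coeToMvPowerSeries.algHom O).comp (MvPolynomial.aeval C.entry) :=
      MvPolynomial.algHom_ext fun i => by
        simp [MvPolynomial.coeToMvPowerSeries.algHom_apply, map_X]
    have hP : C.map ((MvPowerSeries.truncTotal n p : MvPolynomial ι O) : MvPowerSeries ι O) =
        (P : MvPowerSeries C.Param O) := by
      have := AlgHom.congr_fun hc (MvPowerSeries.truncTotal n p)
      simpa [MvPolynomial.coeToMvPowerSeries.algHom_apply, P] using this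
    rw [map_sub, show C.map p = 0 from hp, zero_sub, neg_mem_iff, hP] at h
    exact h
  have h2 : MvPolynomial.aeval u P ∈ I ^ n := by
    rw [P.as_sum, map_sum]
    refine sum_mem fun e _ => ?_
    rw [MvPolynomial.aeval_monomial]
    have hc : algebraMap O T (MvPolynomial.coeff e P) ∈ I ^ (n - C.weight e) := by
      have := h1 e
      rw [MvPolynomial.coeff_coe] at this
      exact Ideal.pow_right_mono hI _ (Ideal.map_pow (algebraMap O T) _ _ ▸
        Ideal.mem_map_of_mem _ this)
    have hm : e.prod (fun k j => u k ^ j) ∈ I ^ C.weight e := by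
      rw [Finsupp.prod_fintype _ _ (by simp), weight, ← Finset.prod_pow_eq_pow_sum]
      refine Ideal.prod_mem_prod fun k _ => ?_
      split
      · exact Ideal.pow_mem_pow (hu k (by assumption)) _
      · simp
    exact Ideal.pow_le_pow_right (by omega)
      (pow_add I _ _ ▸ Ideal.mul_mem_mul hc hm)
  have h3 := evalAdic_sub_truncTotal_mem (O := O) I a ha n p
  have hP' : MvPolynomial.aeval a (MvPowerSeries.truncTotal n p) = MvPolynomial.aeval u P := by
    have hc : (MvPolynomial.aeval u).comp (MvPolynomial.aeval C.entry) =
        (MvPolynomial.aeval a : MvPolynomial ι O →ₐ[O] T) :=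
      MvPolynomial.algHom_ext fun i => by simp [hau]
    exact (AlgHom.congr_fun hc _).symm
  simpa [hP'] using add_mem h3 h2

/-- The product of a family of charts. -/
abbrev sigma {J : Type} [Fintype J] {ι : J → Type} (C : ∀ j, Chart O (ι j)) :
    Chart O (Σ j, ι j) where
  Param := Σ j, (C j).Param
  fintype := inferInstance
  small x := (C x.1).small x.2
  entry x := MvPolynomial.rename (Sigma.mk x.1) ((C x.1).entry x.2)
  entry_small x e he := by
    classical
    by_cases hx : MvPolynomial.coeff e (MvPolynomial.rename (Sigma.mk x.1) ((C x.1).entry x.2)) = 0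
    · rw [hx]; exact zero_mem _
    obtain ⟨d, rfl, -⟩ := MvPolynomial.coeff_rename_ne_zero _ _ _ hx
    rw [MvPolynomial.coeff_rename_mapDomain _ sigma_mk_injective]
    refine (C x.1).entry_small x.2 d fun k hk => ?_
    have := he ⟨x.1, k⟩ hk
    rwa [Finsupp.mapDomain_apply sigma_mk_injective] at this

end Chart

end FLTAgent.ModularityLifting
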