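import Fermat.Agent.ModularityLifting.Local.Chart
import Mathlib.RingTheory.Ideal.KrullsHeightTheorem
import Mathlib.RingTheory.KrullDimension.Zero
import Mathlib.RingTheory.HopkinsLevitzki

/-!
# Dimensions of components

If every variable is nilpotent modulo an ideal, a uniformiser and `d` further elements, the
quotient by the ideal has dimension at most `d + 1`.
-/

set_option autoImplicit false

noncomputable section

open IsLocalRing

namespace FLTAgent.ModularityLifting

variable {O : Type} [CommRing O] [IsDomain O] [IsDiscreteValuationRing O] {ι : Type} [Finite ι]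

open MvPowerSeries in
theorem ringKrullDim_quotient_le_of_nilpotent (C : Ideal (MvPowerSeries ι O)) {ϖ : O}
    (hϖ : Irreducible ϖ) {d : ℕ} (f : Fin d → MvPowerSeries ι O)
    (hf : ∀ k, f k ∈ maximalIdeal (MvPowerSeries ι O))
    (hX : ∀ i, (X i : MvPowerSeries ι O) ∈
      (C ⊔ Ideal.span (insert (MvPowerSeries.C ϖ) (Set.range f))).radical) :
    ringKrullDim (MvPowerSeries ι O ⧸ C) ≤ (d + 1 : ℕ) := by
  classical
  rcases subsingleton_or_nontrivial (MvPowerSeries ι O ⧸ C) with h | h
  · rw [ringKrullDim_eq_bot_of_subsingleton]; exact bot_le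
  let q := Ideal.Quotient.mk C
  have : IsLocalRing (MvPowerSeries ι O ⧸ C) :=
    IsLocalRing.of_surjective' q Ideal.Quotient.mk_surjective
  let J := Ideal.span (insert (MvPowerSeries.C ϖ) (Set.range f) : Set (MvPowerSeries ι O))
  have hJ : J ≤ maximalIdeal (MvPowerSeries ι O) := by
    refine Ideal.span_le.mpr (Set.insert_subset ?_ (by rintro _ ⟨k, rfl⟩; exact hf k))
    rw [SetLike.mem_coe, DefRing.mem_maximalIdeal_iff_constantCoeff, MvPowerSeries.constantCoeff_C]
    exact hϖ.not_isUnit
  let s : Finset (MvPowerSeries ι O ⧸ C) :=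
    insert (q (MvPowerSeries.C ϖ)) (Finset.univ.image fun k => q (f k))
  have hs : (s : Set (MvPowerSeries ι O ⧸ C)) =
      q '' insert (MvPowerSeries.C ϖ) (Set.range f) := by
    rw [Set.image_insert_eq, ← Set.range_comp]
    simp [s, Function.comp_def]
  have hspan : Ideal.span (s : Set (MvPowerSeries ι O ⧸ C)) = J.map q := by
    rw [hs, ← Ideal.map_span]
  have hjac : (s : Set (MvPowerSeries ι O ⧸ C)) ⊆ Ring.jacobson (MvPowerSeries ι O ⧸ C) := by
    rw [IsLocalRing.ringJacobson_eq_maximalIdeal]
    intro x hx
    have := Ideal.subset_span hx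
    rw [hspan] at this
    refine ?_
    have hle : J.map q ≤ maximalIdeal (MvPowerSeries ι O ⧸ C) :=
      le_maximalIdeal fun htop => by
        have h1 : J ⊔ C = ⊤ := by
          have := congrArg (Ideal.comap q) htop
          rwa [Ideal.comap_map_of_surjective _ Ideal.Quotient.mk_surjective, Ideal.comap_top,
            ← RingHom.ker_eq_comap_bot, Ideal.mk_ker] at this
        have hC : C ≤ maximalIdeal (MvPowerSeries ι O) := le_maximalIdeal fun h' => by
          exact not_subsingleton (MvPowerSeries ι O ⧸ C)
            (Ideal.Quotient.subsingleton_iff.mpr h')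
        exact (maximalIdeal.isMaximal _).ne_top (eq_top_iff.mpr (h1 ▸ sup_le hJ hC))
    exact hle this
  refine (ringKrullDim_le_ringKrullDim_quotient_add_card s hjac).trans ?_
  have hzero : ringKrullDim
      ((MvPowerSeries ι O ⧸ C) ⧸ Ideal.span (SetLike.coe s)) ≤ 0 := by
    have hloc : ∀ I : Ideal (MvPowerSeries ι O ⧸ C), I ≠ ⊤ →
        Nontrivial ((MvPowerSeries ι O ⧸ C) ⧸ I) := fun I hI => Ideal.Quotient.nontrivial_iff.mpr hI
    rcases eq_or_ne (Ideal.span (s : Set (MvPowerSeries ι O ⧸ C))) ⊤ with htop | htop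
    · rw [htop, ringKrullDim_eq_bot_of_subsingleton]; exact bot_le
    refine Ring.krullDimLE_iff.mp (Ring.KrullDimLE.mk₀ fun P hP => ?_)
    let π := (Ideal.Quotient.mk (Ideal.span (s : Set (MvPowerSeries ι O ⧸ C)))).comp q
    have hπ : Function.Surjective π :=
      Ideal.Quotient.mk_surjective.comp Ideal.Quotient.mk_surjective
    have : (P.comap π).IsPrime := Ideal.comap_isPrime π P
    have hker : C ⊔ J ≤ P.comap π := by
      refine sup_le (fun x hx => ?_) (fun x hx => ?_)
      · rw [Ideal.mem_comap]
        simp [π, q, Ideal.Quotient.eq_zero_iff_mem.mpr hx]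
      · rw [Ideal.mem_comap]
        have : q x ∈ Ideal.span (s : Set (MvPowerSeries ι O ⧸ C)) :=
          hspan ▸ Ideal.mem_map_of_mem q hx
        simp [π, Ideal.Quotient.eq_zero_iff_mem.mpr this]
    have hrad := (Ideal.radical_mono hker).trans_eq (Ideal.IsPrime.radical inferInstance)
    have hmax : maximalIdeal (MvPowerSeries ι O) ≤ P.comap π := by
      intro p hp
      have h1 : p - MvPowerSeries.C (constantCoeff p) ∈
          Ideal.span (Set.range (X : ι → MvPowerSeries ι O)) ^ 1 := by
        refine DefRing.mem_span_X_pow fun x hx => ?_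
        have : x = 0 := (Finsupp.degree_eq_zero_iff x).mp (by omega)
        subst this
        simp
      rw [pow_one] at h1
      have h2 : Ideal.span (Set.range (X : ι → MvPowerSeries ι O)) ≤ P.comap π :=
        Ideal.span_le.mpr (by rintro _ ⟨i, rfl⟩; exact hrad (hX i))
      have h3 : MvPowerSeries.C (constantCoeff p) ∈ P.comap π := by
        have := (DefRing.mem_maximalIdeal_iff_constantCoeff p).mp hp
        rw [hϖ.maximalIdeal_eq, Ideal.mem_span_singleton] at this
        obtain ⟨c, hc⟩ := this
        rw [hc, map_mul]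
        exact Ideal.mul_mem_right _ _
          (hker (Ideal.mem_sup_right (Ideal.subset_span (Set.mem_insert _ _))))
      simpa using add_mem (h2 h1) h3
    have heq : P.comap π = maximalIdeal (MvPowerSeries ι O) :=
      ((maximalIdeal.isMaximal _).eq_of_le (Ideal.IsPrime.ne_top inferInstance) hmax).symm
    rw [← Ideal.map_comap_of_surjective π hπ P, heq]
    refine (Ideal.map_eq_top_or_isMaximal_of_surjective π hπ
      (maximalIdeal.isMaximal _)).resolve_left
      fun h' => hP.ne_top ?_
    rw [← Ideal.map_comap_of_surjective π hπ P, heq, h']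
  have hcard : s.card ≤ d + 1 :=
    (Finset.card_insert_le _ _).trans (Nat.add_le_add_right
      (Finset.card_image_le.trans (by simp)) 1)
  calc _ ≤ (0 : WithBot ℕ∞) + (s.card : WithBot ℕ∞) := add_le_add hzero le_rfl
    _ ≤ _ := by rw [zero_add]; exact_mod_cast hcard

end FLTAgent.ModularityLifting
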