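import Fermat.Agent.DefRing.PowerSeries
import Fermat.Agent.DefRing.TestAlgebra
import Mathlib.RingTheory.AdicCompletion.RingHom

/-!
# Evaluation of power series in complete rings

`evalAdic` evaluates power series at elements of an ideal of definition of a complete ring; it is
characterised by its values at the variables (`eq_evalAdic`) and congruent to the evaluation of
truncations.
-/

set_option autoImplicit false

noncomputable section

open IsLocalRing

namespace FLTAgent.ModularityLifting

open FLTAgent.DefRing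

variable {σ : Type} [Finite σ] {O : Type} [CommRing O] [IsLocalRing O]
variable {T : Type} [CommRing T] [Algebra O T] (I : Ideal T)

/-- Evaluation modulo `I ^ n`. -/
def evalMod (a : σ → T) (ha : ∀ i, a i ∈ I) (n : ℕ) : MvPowerSeries σ O →ₐ[O] T ⧸ I ^ n :=
  evalNilp (I.map (Ideal.Quotient.mk (I ^ n))) n
    (by rw [← Ideal.map_pow, Ideal.map_quotient_self]) (fun i => Ideal.Quotient.mk _ (a i))
    (fun i => Ideal.mem_map_of_mem _ (ha i))

omit [IsLocalRing O] in
theorem evalMod_X (a : σ → T) (ha : ∀ i, a i ∈ I) (n : ℕ) (i : σ) :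
    evalMod (O := O) I a ha n (MvPowerSeries.X i) = Ideal.Quotient.mk _ (a i) :=
  evalNilp_X _ _ _ _ _ i

omit [IsLocalRing O] in
theorem evalMod_compat (a : σ → T) (ha : ∀ i, a i ∈ I) {m n : ℕ} (h : m ≤ n) :
    (Ideal.Quotient.factorₐ O (Ideal.pow_le_pow_right h)).comp (evalMod (O := O) I a ha n) =
      evalMod I a ha m := by
  have := isHausdorff_of_pow_eq_bot (I.map (Ideal.Quotient.mk (I ^ m))) m
    (by rw [← Ideal.map_pow, Ideal.map_quotient_self])
  refine algHom_ext_of_hausdorff (I.map (Ideal.Quotient.mk (I ^ m))) _ _ (fun i => ?_) fun i => ?_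
  · rw [AlgHom.comp_apply, evalMod_X]
    exact Ideal.mem_map_of_mem (Ideal.Quotient.mk (I ^ m)) (ha i)
  · rw [AlgHom.comp_apply, evalMod_X, evalMod_X]
    rfl

variable [IsAdicComplete I T]

/-- Evaluation of power series at elements of an ideal of definition. -/
def evalAdic (a : σ → T) (ha : ∀ i, a i ∈ I) : MvPowerSeries σ O →ₐ[O] T :=
  IsAdicComplete.liftAlgHom I (evalMod I a ha) fun {_ _} h => evalMod_compat I a ha h

omit [IsLocalRing O] in
@[simp] theorem evalAdic_X (a : σ → T) (ha : ∀ i, a i ∈ I) (i : σ) :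
    evalAdic (O := O) I a ha (MvPowerSeries.X i) = a i := by
  refine sub_eq_zero.mp (IsHausdorff.haus (I := I) inferInstance _ fun n => ?_)
  rw [SModEq.zero, smul_eq_mul, Ideal.mul_top, ← Ideal.Quotient.eq_zero_iff_mem, map_sub,
    sub_eq_zero]
  exact (IsAdicComplete.mk_liftAlgHom I _ _ n _).trans (evalMod_X I a ha n i)

omit [IsLocalRing O] in
/-- Uniqueness of evaluation. -/
theorem eq_evalAdic (a : σ → T) (ha : ∀ i, a i ∈ I) (φ : MvPowerSeries σ O →ₐ[O] T)
    (h : ∀ i, φ (MvPowerSeries.X i) = a i) : φ = evalAdic I a ha :=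
  algHom_ext_of_hausdorff I _ _ (fun i => h i ▸ ha i) fun i => by rw [h, evalAdic_X]

omit [IsLocalRing O] in
/-- Evaluation is congruent to evaluation of truncations. -/
theorem evalAdic_sub_truncTotal_mem (a : σ → T) (ha : ∀ i, a i ∈ I) (n : ℕ)
    (p : MvPowerSeries σ O) :
    evalAdic (O := O) I a ha p - MvPolynomial.aeval a (MvPowerSeries.truncTotal n p) ∈ I ^ n := by
  have h := mem_pow_of_algHom I (evalAdic (O := O) I a ha) (fun i => by rw [evalAdic_X]; exact ha i)
    n _ (sub_trunc_mem_span_X_pow n p)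
  have hc : (evalAdic (O := O) I a ha).comp (MvPolynomial.coeToMvPowerSeries.algHom O) =
      MvPolynomial.aeval a :=
    MvPolynomial.algHom_ext fun i => by
      simp [MvPolynomial.coeToMvPowerSeries.algHom_apply]
  rw [map_sub] at h
  rw [← hc]
  simpa [MvPolynomial.coeToMvPowerSeries.algHom_apply] using h

end FLTAgent.ModularityLifting
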