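import Fermat.Agent.ModularityLifting.Local.Dimension
import Mathlib.LinearAlgebra.Matrix.Notation
import Mathlib.RingTheory.MvPowerSeries.Inverse
import Mathlib.Tactic.FinCases
import Mathlib.Tactic.LinearCombination

/-!
# Free and triangular charts

Free charts have parameters among the coordinates, the other coordinates being constants.
Triangular charts describe matrices made triangular by one lower unipotent, with fixed diagonals:
Steinberg representations at a point with a unique residual line, and strictly ordinary
representations. Both have as many free parameters as their dimension.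
-/

set_option autoImplicit false

noncomputable section

open IsLocalRing

namespace FLTAgent.ModularityLifting

open FLTAgent.DefRing

variable {O : Type} [CommRing O] [IsLocalRing O]

namespace Chart

variable {ι ι' : Type}

/-- Forget or repeat coordinates. -/
abbrev reindex (C : Chart O ι) (u : ι' → ι) : Chart O ι' where
  Param := C.Param
  fintype := C.fintype
  small := C.small
  entry i := C.entry (u i)
  entry_small i := C.entry_small (u i)

/-- The coordinates are parameters or constants in the maximal ideal. -/
abbrev free {κ : Type} [Fintype κ] (v : ι → κ ⊕ maximalIdeal O) : Chart O ι where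
  Param := κ
  fintype := inferInstance
  small _ := true
  entry i := (v i).elim MvPolynomial.X fun c : maximalIdeal O => MvPolynomial.C (c : O)
  entry_small i e he := by
    classical
    rcases h : v i with k | c
    · rw [Sum.elim_inl, MvPolynomial.coeff_X]
      split
      · next h' => exact absurd (he k rfl) (by subst h'; simp)
      · exact zero_mem _
    · rw [Sum.elim_inr, MvPolynomial.coeff_C]
      split
      · exact c.2
      · exact zero_mem _

/-- The entries of `[[a, c], [0, d]]` conjugated by a lower unipotent. -/
def triEntry {P : Type} [CommRing P] (a d c t : P) : Matrix (Fin 2) (Fin 2) P :=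
  !![a - c * t, c; t * (a - d) - c * t * t, d + c * t]

theorem map_triEntry {P P' : Type} [CommRing P] [CommRing P'] (φ : P →+* P') (a d c t : P)
    (i j : Fin 2) : φ (triEntry a d c t i j) = triEntry (φ a) (φ d) (φ c) (φ t) i j := by
  fin_cases i <;> fin_cases j <;> simp [triEntry]

/-- The triangular chart: the parameters are the upper entries and the slope of the line, centred
at `c₀` and `0`. -/
abbrev tri {J : Type} [Fintype J] (a d c₀ : J → O) : Chart O (J × Fin 2 × Fin 2) where
  Param := Option J
  fintype := inferInstance
  small _ := true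
  entry x := triEntry (MvPolynomial.C (a x.1)) (MvPolynomial.C (d x.1))
      (MvPolynomial.C (c₀ x.1) + MvPolynomial.X (some x.1)) (MvPolynomial.X none) x.2.1 x.2.2 -
    MvPolynomial.C (triEntry (a x.1) (d x.1) (c₀ x.1) 0 x.2.1 x.2.2)
  entry_small x e he := by
    obtain rfl : e = 0 := Finsupp.ext fun k => he k rfl
    rw [← MvPolynomial.constantCoeff_eq, map_sub, map_triEntry, MvPolynomial.constantCoeff_C]
    simp

variable [IsNoetherianRing O] [IsAdicComplete (maximalIdeal O) O] [Finite ι] [Finite ι']

theorem mem_component {C : Chart O ι} {p : MvPowerSeries ι O} :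
    p ∈ C.component ↔ C.map p = 0 := RingHom.mem_ker

theorem map_C (C : Chart O ι) (c : O) :
    C.map (MvPowerSeries.C c) = MvPowerSeries.C c := by
  simpa [MvPowerSeries.algebraMap_apply] using C.map.commutes c

/-- A system of parameters of a component: `d` elements modulo which, and `ϖ`, every coordinate
is nilpotent. -/
def HasSop (C : Chart O ι) (ϖ : O) (d : ℕ) : Prop :=
  ∃ f : Fin d → MvPowerSeries ι O, (∀ k, f k ∈ maximalIdeal (MvPowerSeries ι O)) ∧
    ∀ i, (MvPowerSeries.X i : MvPowerSeries ι O) ∈
      (C.component ⊔ Ideal.span (insert (MvPowerSeries.C ϖ) (Set.range f))).radical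

theorem ringKrullDim_quotient_component_le {O : Type} [CommRing O] [IsDomain O]
    [IsDiscreteValuationRing O] [IsAdicComplete (maximalIdeal O) O] (C : Chart O ι) {ϖ : O}
    (hϖ : Irreducible ϖ) {d : ℕ} (h : C.HasSop ϖ d) :
    ringKrullDim (MvPowerSeries ι O ⧸ C.component) ≤ (d + 1 : ℕ) := by
  obtain ⟨f, hf, hX⟩ := h
  exact ringKrullDim_quotient_le_of_nilpotent _ hϖ f hf hX

theorem constantCoeff_map_sub_mem (C : Chart O ι) (p : MvPowerSeries ι O) :
    C.map p - MvPowerSeries.C (MvPowerSeries.constantCoeff p) ∈
      maximalIdeal (MvPowerSeries C.Param O) := by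
  have h := mem_pow_of_algHom (maximalIdeal (MvPowerSeries C.Param O)) C.map
    (fun i => by rw [map_X]; exact C.filt_one_le (C.entry_mem_filt i)) 1
    (p - MvPowerSeries.C (MvPowerSeries.constantCoeff p))
    (DefRing.mem_span_X_pow fun x hx => by
      obtain rfl : x = 0 := (Finsupp.degree_eq_zero_iff x).mp (by omega)
      simp)
  rwa [pow_one, map_sub, map_C] at h

/-- If every parameter is the image of a series, these series form a system of parameters. -/
theorem hasSop_of_preimage (C : Chart O ι) {ϖ : O} (hϖ : maximalIdeal O = Ideal.span {ϖ})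
    (g : C.Param → MvPowerSeries ι O) (hg : ∀ k, C.map (g k) = MvPowerSeries.X k) :
    C.HasSop ϖ (Fintype.card C.Param) := by
  classical
  let e := (Fintype.equivFin C.Param).symm
  have hgm : ∀ k, g k ∈ maximalIdeal (MvPowerSeries ι O) := fun k => by
    have h := C.constantCoeff_map_sub_mem (g k)
    rw [hg, mem_maximalIdeal_iff_constantCoeff, map_sub, MvPowerSeries.constantCoeff_X,
      MvPowerSeries.constantCoeff_C, zero_sub, neg_mem_iff] at h
    exact (mem_maximalIdeal_iff_constantCoeff _).mpr h
  refine ⟨fun k => g (e k), fun k => hgm _, fun i => Ideal.le_radical ?_⟩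
  -- the inverse of the chart
  let ψ : MvPowerSeries C.Param O →ₐ[O] MvPowerSeries ι O :=
    evalAdic (maximalIdeal (MvPowerSeries ι O)) g hgm
  have hψ : C.map.comp ψ = AlgHom.id O _ :=
    algHom_ext_of_hausdorff (maximalIdeal (MvPowerSeries C.Param O)) _ _
      (fun k => by
        rw [AlgHom.comp_apply, evalAdic_X, hg]; exact DefRing.X_mem_maximalIdeal k)
      (fun k => by simp [ψ, hg])
  set J := Ideal.span (insert (MvPowerSeries.C ϖ) (Set.range fun k => g (e k))) with hJ
  set p := (C.entry i : MvPowerSeries C.Param O) with hp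
  have hψp : ψ p ∈ J := by
    have h := mem_pow_of_algHom J ψ (fun k => by
      rw [evalAdic_X]
      exact Ideal.subset_span (Set.mem_insert_of_mem _ ⟨e.symm k, by simp⟩)) 1
      (p - MvPowerSeries.C (MvPowerSeries.constantCoeff p))
      (DefRing.mem_span_X_pow fun x hx => by
        obtain rfl : x = 0 := (Finsupp.degree_eq_zero_iff x).mp (by omega)
        simp)
    rw [pow_one, map_sub] at h
    have hc : MvPowerSeries.constantCoeff p ∈ maximalIdeal O :=
      (mem_maximalIdeal_iff_constantCoeff p).mp (C.filt_one_le (C.entry_mem_filt i))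
    rw [hϖ, Ideal.mem_span_singleton] at hc
    obtain ⟨c, hc⟩ := hc
    have h2 : ψ (MvPowerSeries.C (MvPowerSeries.constantCoeff p)) ∈ J := by
      have := ψ.commutes (MvPowerSeries.constantCoeff p)
      simp only [MvPowerSeries.algebraMap_apply, Algebra.algebraMap_self, RingHom.id_apply] at this
      rw [this, hc, map_mul]
      exact Ideal.mul_mem_right _ _ (Ideal.subset_span (Set.mem_insert _ _))
    simpa using add_mem h h2
  have hker : MvPowerSeries.X i - ψ p ∈ C.component := by
    rw [mem_component, map_sub, map_X, ← AlgHom.comp_apply, hψ]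
    simp [hp]
  simpa using add_mem (Ideal.mem_sup_left (T := J) hker)
    (Ideal.mem_sup_right (S := C.component) hψp)

omit [IsLocalRing O] [IsNoetherianRing O] [IsAdicComplete (maximalIdeal O) O] in
/-- A unit of a power series ring with the constants it needs. -/
theorem exists_mul_eq_one {σ : Type} (p : MvPowerSeries σ O)
    (h : IsUnit (MvPowerSeries.constantCoeff p)) : ∃ w, p * w = 1 :=
  (MvPowerSeries.isUnit_iff_constantCoeff.mpr h).exists_right_inv

/-- A triangular chart has one parameter for each element and one for the line, provided some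
element has unit eigenvalue difference or unit upper entry. The coordinates used are the upper
entries and, at that element, the first column. -/
theorem tri_hasSop {J : Type} [Fintype J] (a d c₀ : J → O) (u : ι → J × Fin 2 × Fin 2) {ϖ : O}
    (hϖ : maximalIdeal O = Ideal.span {ϖ}) (hu : ∀ j, ∃ i, u i = (j, 0, 1)) {j₀ : J}
    (h00 : ∃ i, u i = (j₀, 0, 0)) (h10 : ∃ i, u i = (j₀, 1, 0))
    (hne : IsUnit (a j₀ - d j₀) ∨ IsUnit (c₀ j₀)) :
    ((tri a d c₀).reindex u).HasSop ϖ (Fintype.card J + 1) := by
  classical
  set C := (tri a d c₀).reindex u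
  choose i₁ hi₁ using hu
  obtain ⟨i₀, hi₀⟩ := h00
  obtain ⟨i₂, hi₂⟩ := h10
  have h01 : ∀ j, C.map (MvPowerSeries.X (i₁ j)) = MvPowerSeries.X (some j) := fun j => by
    rw [map_X]; simp [C, hi₁, triEntry, ← MvPolynomial.coe_X]
  have hE0 : C.map (MvPowerSeries.X i₀) =
      -((MvPowerSeries.C (c₀ j₀) + MvPowerSeries.X (some j₀)) * MvPowerSeries.X none) := by
    rw [map_X, ← MvPolynomial.coeToMvPowerSeries.ringHom_apply]
    simp only [C, hi₀, triEntry, map_sub, map_add, map_mul, Matrix.of_apply,
      Matrix.cons_val', Matrix.cons_val_zero, Matrix.cons_val_fin_one, mul_zero, sub_zero,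
      MvPolynomial.coeToMvPowerSeries.ringHom_apply, MvPolynomial.coe_C, MvPolynomial.coe_X]
    ring
  have hE2 : C.map (MvPowerSeries.X i₂) =
      MvPowerSeries.X none * (MvPowerSeries.C (a j₀) - MvPowerSeries.C (d j₀)) -
        (MvPowerSeries.C (c₀ j₀) + MvPowerSeries.X (some j₀)) * MvPowerSeries.X none *
          MvPowerSeries.X none := by
    rw [map_X, ← MvPolynomial.coeToMvPowerSeries.ringHom_apply]
    simp only [C, hi₂, triEntry, map_sub, map_add, map_mul, Matrix.of_apply,
      Matrix.cons_val', Matrix.cons_val_zero, Matrix.cons_val_one, Matrix.cons_val_fin_one,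
      mul_zero, zero_mul, sub_zero, map_zero,
      MvPolynomial.coeToMvPowerSeries.ringHom_apply, MvPolynomial.coe_C, MvPolynomial.coe_X]
  have ht : ∃ g, C.map g = MvPowerSeries.X none := by
    rcases hne with h | h
    · obtain ⟨w, hw⟩ := exists_mul_eq_one
        (MvPowerSeries.C (a j₀ - d j₀) + MvPowerSeries.X i₀) (by simpa using h)
      refine ⟨MvPowerSeries.X i₂ * w, ?_⟩
      have h1 := congrArg C.map hw
      rw [map_mul, map_add, map_C, hE0, map_one, map_sub] at h1
      rw [map_mul, hE2]
      linear_combination MvPowerSeries.X none * h1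
    · obtain ⟨w, hw⟩ := exists_mul_eq_one
        (MvPowerSeries.C (c₀ j₀) + MvPowerSeries.X (i₁ j₀)) (by simpa using h)
      refine ⟨-(MvPowerSeries.X i₀ * w), ?_⟩
      have h1 := congrArg C.map hw
      rw [map_mul, map_add, map_C, h01, map_one] at h1
      rw [map_neg, map_mul, hE0]
      linear_combination MvPowerSeries.X none * h1
  obtain ⟨g, hg⟩ := ht
  have := hasSop_of_preimage C hϖ
    (fun k : Option J => k.elim g fun j => MvPowerSeries.X (i₁ j))
    (fun k => by cases k <;> simp [hg, h01])
  simpa [C] using this

/-- A free chart has as many parameters as free coordinates. -/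
theorem free_hasSop {κ : Type} [Fintype κ] (v : ι → κ ⊕ maximalIdeal O) {ϖ : O}
    (hϖ : maximalIdeal O = Ideal.span {ϖ}) (hv : ∀ k, ∃ i, v i = Sum.inl k) :
    (free v).HasSop ϖ (Fintype.card κ) := by
  choose i hi using hv
  exact hasSop_of_preimage (free v) hϖ (fun k => MvPowerSeries.X (i k))
    fun k => by rw [map_X]; simp [hi, MvPolynomial.coe_X]

end Chart

end FLTAgent.ModularityLifting
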